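import Mathlib
import Fermat.Prelude.Def_GaloisRep_Residual
import Fermat.Prelude.Def_GaloisRep_LocalConditions
import Fermat.Agent.MU.S56.Local.Walls

section MergeWrap_S53_NormSchur -- from S53/NormSchur.lean

/-!
# S53: Schur's lemma in matrix form (owner: helper32)

If `ρbar` is absolutely irreducible, a matrix commuting with all matrices of `ρbar` (in a basis
`b`) is scalar.
-/

namespace Fermat.Agent.S53

open Matrix Module TensorProduct

theorem schur_of_isAbsolutelyIrreducible {k : Type} [Field k] (ρbar : ResidualGaloisRep k)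
    (habs : ρbar.IsAbsolutelyIrreducible) (b : Module.Basis (Fin 2) k ρbar.V)
    (X : Matrix (Fin 2) (Fin 2) k)
    (hX : ∀ g, X * LinearMap.toMatrix b b (ρbar.ρ g) = LinearMap.toMatrix b b (ρbar.ρ g) * X) :
    ∃ s : k, X = s • (1 : Matrix (Fin 2) (Fin 2) k) := by
  classical
  set K := AlgebraicClosure k with hK
  set f : ρbar.V →ₗ[k] ρbar.V := Matrix.toLin b b X with hf
  have hcomm : ∀ g, f ∘ₗ ρbar.ρ g = ρbar.ρ g ∘ₗ f := by
    intro g
    have h1 : ρbar.ρ g = Matrix.toLin b b (LinearMap.toMatrix b b (ρbar.ρ g)) :=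
      (Matrix.toLin_toMatrix b b _).symm
    rw [h1, hf, ← Matrix.toLin_mul b b b, ← Matrix.toLin_mul b b b, hX g]
  set fK : (K ⊗[k] ρbar.V) →ₗ[K] (K ⊗[k] ρbar.V) := f.baseChange K with hfK
  have hcommK : ∀ g (x : K ⊗[k] ρbar.V),
      fK ((ρbar.ρ g).baseChange K x) = (ρbar.ρ g).baseChange K (fK x) := by
    intro g x
    have h1 : fK ∘ₗ (ρbar.ρ g).baseChange K = (ρbar.ρ g).baseChange K ∘ₗ fK := by
      rw [hfK, ← LinearMap.baseChange_comp, ← LinearMap.baseChange_comp, hcomm g]
    exact LinearMap.congr_fun h1 x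
  have : Module.Finite K (K ⊗[k] ρbar.V) := inferInstance
  have : Nontrivial (K ⊗[k] ρbar.V) := by
    have h2 : Module.finrank K (K ⊗[k] ρbar.V) = 2 := by
      rw [Module.finrank_baseChange, ρbar.finrank_eq]
    exact Module.nontrivial_of_finrank_pos (R := K) (by rw [h2]; norm_num)
  obtain ⟨μ, hμ⟩ := Module.End.exists_eigenvalue fK
  set W : Submodule K (K ⊗[k] ρbar.V) := Module.End.eigenspace fK μ with hW
  have hWstable : ∀ σ : AlgebraicClosure ℚ ≃ₐ[ℚ] AlgebraicClosure ℚ, ∀ x ∈ W,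
      (ρbar.baseChange K).ρ σ x ∈ W := by
    intro σ x hx
    rw [hW, Module.End.mem_eigenspace_iff] at hx ⊢
    show fK ((ρbar.ρ σ).baseChange K x) = μ • (ρbar.ρ σ).baseChange K x
    rw [hcommK, hx, map_smul]
  have hWtop : W = ⊤ := by
    rcases habs W hWstable with h | h
    · exact absurd h hμ
    · exact h
  have hfKμ : ∀ x, fK x = μ • x := by
    intro x
    have : x ∈ W := by rw [hWtop]; trivial
    rwa [hW, Module.End.mem_eigenspace_iff] at this
  -- compare matrices
  have hmat : (LinearMap.toMatrix b b f).map (algebraMap k K) =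
      μ • (1 : Matrix (Fin 2) (Fin 2) K) := by
    rw [← LinearMap.toMatrix_baseChange]
    ext i j
    rw [LinearMap.toMatrix_apply, ← hfK, hfKμ]
    simp [Matrix.one_apply, Finsupp.single_apply, eq_comm]
  rw [hf, LinearMap.toMatrix_toLin] at hmat
  have hinj : Function.Injective (algebraMap k K) := (algebraMap k K).injective
  refine ⟨X 1 1, ?_⟩
  have h00 := congrFun (congrFun hmat 0) 0
  have h01 := congrFun (congrFun hmat 0) 1
  have h10 := congrFun (congrFun hmat 1) 0
  have h11 := congrFun (congrFun hmat 1) 1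
  simp at h00 h01 h10 h11
  ext i j
  fin_cases i <;> fin_cases j
  · simp; apply hinj; rw [h00, h11]
  · simp; exact h01
  · simp; exact h10
  · simp

end Fermat.Agent.S53
end MergeWrap_S53_NormSchur

section MergeWrap_S56_W3_Arch -- from S56/W3/Arch.lean

set_option autoImplicit false

namespace Fermat.Agent.S56

open Fermat.Agent.F4 ExtCitation

/-- `p = 0` in `k`, from the determinant condition. -/
theorem arch_p_eq_zero {k : Type} [Field k] (p : ℕ) (ρbar : ResidualGaloisRep k)
    (hdet : (GaloisRepAdic.ofResidualGaloisRep ρbar).DetIsCyclotomic p) : (p : k) = 0 := by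
  have h := hdet.1
  have hbot : IsLocalRing.maximalIdeal k = ⊥ :=
    (Ideal.eq_bot_or_top _).resolve_right (Ideal.IsMaximal.ne_top inferInstance)
  rw [hbot] at h
  exact h

/-- The determinant of `ρbar(σ)` is `a` when `σ` acts on the `p`-th roots of unity by
`μ ↦ μ ^ a`. -/
theorem arch_det_eq {k : Type} [Field k] (p : ℕ) (ρbar : ResidualGaloisRep k)
    (hdet : (GaloisRepAdic.ofResidualGaloisRep ρbar).DetIsCyclotomic p)
    (σ : AlgebraicClosure ℚ ≃ₐ[ℚ] AlgebraicClosure ℚ) (a : ℕ)
    (h : ∀ μ : AlgebraicClosure ℚ, μ ^ p = 1 → σ μ = μ ^ a) :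
    LinearMap.det (ρbar.ρ σ) = (a : k) := by
  have hp := arch_p_eq_zero p ρbar hdet
  have h1 := hdet.2 1 σ a (fun μ hμ => h μ (by rwa [pow_one] at hμ))
  rw [pow_one, hp, Ideal.mem_span_singleton, zero_dvd_iff, sub_eq_zero] at h1
  exact h1

/-- Complex conjugation inverts the roots of unity. -/
theorem arch_conj_root (p : ℕ) (hp : p ≠ 0) (μ : AlgebraicClosure ℚ) (hμ : μ ^ p = 1) :
    complexConjugation μ = μ ^ (p - 1) := by
  have hinj : Function.Injective complexEmbedding := complexEmbedding.toRingHom.injective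
  apply hinj
  rw [complexEmbedding_complexConjugation, map_pow]
  set z : ℂ := complexEmbedding μ with hz
  have hzp : z ^ p = 1 := by rw [hz, ← map_pow, hμ, map_one]
  have hnorm : ‖z‖ = 1 := Complex.norm_eq_one_of_pow_eq_one hzp hp
  have h1 : z⁻¹ = starRingEnd ℂ z := Complex.inv_eq_conj hnorm
  rw [← h1]
  have h2 : z ^ (p - 1) * z = 1 := by
    rw [← pow_succ, Nat.sub_add_cancel (Nat.one_le_iff_ne_zero.mpr hp), hzp]
  exact (eq_inv_of_mul_eq_one_left h2).symm

/-- `det ρbar(c) = -1` for the complex conjugation `c`. -/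
theorem arch_det_conj {k : Type} [Field k] (p : ℕ) [Fact p.Prime] (ρbar : ResidualGaloisRep k)
    (hdet : (GaloisRepAdic.ofResidualGaloisRep ρbar).DetIsCyclotomic p) :
    LinearMap.det (ρbar.ρ complexConjugation) = -1 := by
  have hp : p.Prime := Fact.out
  have h := arch_det_eq p ρbar hdet complexConjugation (p - 1)
    (fun μ hμ => arch_conj_root p hp.ne_zero μ hμ)
  rw [h, Nat.cast_sub hp.one_le, arch_p_eq_zero p ρbar hdet, Nat.cast_one, zero_sub]

/-- Cayley–Hamilton in dimension `2`. -/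
theorem arch_cayley {k : Type} [Field k] {V : Type} [AddCommGroup V] [Module k V]
    (hV : Module.finrank k V = 2) (f : Module.End k V) :
    f * f - LinearMap.trace k V f • f + LinearMap.det f • (1 : Module.End k V) = 0 := by
  classical
  have hfin : Module.Finite k V := Module.finite_of_finrank_eq_succ hV
  have b : Module.Basis (Fin 2) k V := Module.finBasisOfFinrankEq k V hV
  have hch := LinearMap.aeval_self_charpoly f
  rw [← LinearMap.charpoly_toMatrix f b, Matrix.charpoly_fin_two,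
    ← LinearMap.trace_eq_matrix_trace k b f, LinearMap.det_toMatrix b f] at hch
  simpa [pow_two, Algebra.smul_def] using hch

/-- `tr ρbar(c) = 0` for the complex conjugation `c`. -/
theorem arch_trace_conj {k : Type} [Field k] (p : ℕ) [Fact p.Prime] (ρbar : ResidualGaloisRep k)
    (hdet : (GaloisRepAdic.ofResidualGaloisRep ρbar).DetIsCyclotomic p) :
    LinearMap.trace k ρbar.V (ρbar.ρ complexConjugation) = 0 := by
  have hcc : ρbar.ρ complexConjugation * ρbar.ρ complexConjugation = 1 := by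
    rw [← map_mul, complexConjugation_mul_self, map_one]
  have h := arch_cayley ρbar.finrank_eq (ρbar.ρ complexConjugation)
  rw [hcc, arch_det_conj p ρbar hdet, neg_smul, one_smul, sub_add_eq_add_sub,
    add_neg_cancel, zero_sub, neg_eq_zero] at h
  by_contra hne
  have h2 : ρbar.ρ complexConjugation = 0 := by
    rcases smul_eq_zero.mp h with h3 | h3
    · exact absurd h3 hne
    · exact h3
  rw [h2, mul_zero] at hcc
  have hnt : Nontrivial ρbar.V :=
    Module.nontrivial_of_finrank_pos (R := k) (by rw [ρbar.finrank_eq]; norm_num)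
  exact zero_ne_one hcc

/-- `2 ≠ 0` in `k`. -/
theorem arch_two_ne_zero {k : Type} [Field k] (p : ℕ) [Fact p.Prime] (hp2 : p ≠ 2)
    (hpk : (p : k) = 0) : (2 : k) ≠ 0 := by
  have hp : p.Prime := Fact.out
  intro h2
  obtain ⟨m, hm⟩ := hp.odd_of_ne_two hp2
  have h3 : (p : k) = 2 * (m : k) + 1 := by
    rw [hm]; push_cast; ring
  rw [hpk, h2, zero_mul, zero_add] at h3
  exact zero_ne_one h3

/-- A trace-zero endomorphism commuting with an absolutely irreducible `ρbar` is zero. -/
theorem arch_commute_eq_zero {k : Type} [Field k] (p : ℕ) [Fact p.Prime] (hp2 : p ≠ 2)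
    (hpk : (p : k) = 0) (ρbar : ResidualGaloisRep k) (habs : ρbar.IsAbsolutelyIrreducible)
    (f : Module.End k ρbar.V) (htr : LinearMap.trace k ρbar.V f = 0)
    (hcomm : ∀ g, f * ρbar.ρ g = ρbar.ρ g * f) : f = 0 := by
  classical
  have b : Module.Basis (Fin 2) k ρbar.V := Module.finBasisOfFinrankEq k ρbar.V ρbar.finrank_eq
  obtain ⟨s, hs⟩ := Fermat.Agent.S53.schur_of_isAbsolutelyIrreducible ρbar habs b
    (LinearMap.toMatrix b b f) (fun g => by
      rw [← LinearMap.toMatrix_mul, ← LinearMap.toMatrix_mul, hcomm g])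
  have htr' : (LinearMap.toMatrix b b f).trace = 0 := by
    rw [← LinearMap.trace_eq_matrix_trace k b f, htr]
  rw [hs, Matrix.trace_smul, Matrix.trace_one, Fintype.card_fin, smul_eq_mul] at htr'
  have hs0 : s = 0 := by
    rcases mul_eq_zero.mp htr' with h | h
    · exact h
    · exact absurd (by exact_mod_cast h) (arch_two_ne_zero p hp2 hpk)
  rw [hs0, zero_smul] at hs
  exact (LinearEquiv.map_eq_zero_iff (LinearMap.toMatrix b b)).mp hs

/-- The action of `G_ℚ` on `ad⁰ ρbar` is conjugation. -/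
theorem arch_ad0_ρ_val {k : Type} [Field k] (ρbar : ResidualGaloisRep k) (g : GQ)
    (x : ad0 ρbar) :
    (((ad0 ρbar).ρ g x : ad0 ρbar) : ↥(ad0Sub ρbar)).1 =
      ρbar.ρ g * ((x : ↥(ad0Sub ρbar)).1 * ρbar.ρ g⁻¹) := rfl

/-- The element `ρbar(c)` of `ad⁰ ρbar`. -/
noncomputable def archElt {k : Type} [Field k] (p : ℕ) [Fact p.Prime] (ρbar : ResidualGaloisRep k)
    (hdet : (GaloisRepAdic.ofResidualGaloisRep ρbar).DetIsCyclotomic p) : ad0 ρbar :=
  (⟨ρbar.ρ complexConjugation, LinearMap.mem_ker.mpr (arch_trace_conj p ρbar hdet)⟩ :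
    ↥(ad0Sub ρbar))

theorem archElt_val {k : Type} [Field k] (p : ℕ) [Fact p.Prime] (ρbar : ResidualGaloisRep k)
    (hdet : (GaloisRepAdic.ofResidualGaloisRep ρbar).DetIsCyclotomic p) :
    ((archElt p ρbar hdet : ad0 ρbar) : ↥(ad0Sub ρbar)).1 = ρbar.ρ complexConjugation := rfl

theorem archElt_ne_zero {k : Type} [Field k] (p : ℕ) [Fact p.Prime] (ρbar : ResidualGaloisRep k)
    (hdet : (GaloisRepAdic.ofResidualGaloisRep ρbar).DetIsCyclotomic p) :
    archElt p ρbar hdet ≠ 0 := by
  intro h0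
  have h1 : ρbar.ρ complexConjugation = 0 := by
    rw [← archElt_val p ρbar hdet, h0]
    rfl
  have hcc : ρbar.ρ complexConjugation * ρbar.ρ complexConjugation = 1 := by
    rw [← map_mul, complexConjugation_mul_self, map_one]
  rw [h1, mul_zero] at hcc
  have hnt : Nontrivial ρbar.V :=
    Module.nontrivial_of_finrank_pos (R := k) (by rw [ρbar.finrank_eq]; norm_num)
  exact zero_ne_one hcc

theorem archElt_mem {k : Type} [Field k] (p : ℕ) [Fact p.Prime] (ρbar : ResidualGaloisRep k)
    (hdet : (GaloisRepAdic.ofResidualGaloisRep ρbar).DetIsCyclotomic p) :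
    archElt p ρbar hdet ∈ H0arch (ad0 ρbar) := by
  show (ad0 ρbar).ρ complexConjugation (archElt p ρbar hdet) = archElt p ρbar hdet
  have hcc : ρbar.ρ complexConjugation * ρbar.ρ complexConjugation⁻¹ = 1 := by
    rw [← map_mul, mul_inv_cancel, map_one]
  apply Subtype.ext
  rw [arch_ad0_ρ_val, archElt_val, hcc, mul_one]

/-- The determinant of `ρbar` is the mod `p` cyclotomic character. -/
theorem detChar_isCycloChar {k : Type} [Field k] (p : ℕ) [Fact p.Prime]
    (ρbar : ResidualGaloisRep k)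
    (hdet : (GaloisRepAdic.ofResidualGaloisRep ρbar).DetIsCyclotomic p) :
    IsCycloChar p (detChar ρbar) := by
  intro σ a h
  rw [detChar, MonoidHom.coe_toHomUnits]
  exact arch_det_eq p ρbar hdet σ a h

/-- `#H⁰(ℝ, ad⁰ρbar) ≥ |k|` (`ρbar` is odd). -/
theorem card_le_card_H0arch {k : Type} [Field k] [Finite k] (p : ℕ) [Fact p.Prime]
    (hp2 : p ≠ 2) (ρbar : ResidualGaloisRep k)
    (hdet : (GaloisRepAdic.ofResidualGaloisRep ρbar).DetIsCyclotomic p) :
    Nat.card k ≤ Nat.card (H0arch (ad0 ρbar)) := by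
  have hfinEnd : Finite (Module.End k ρbar.V) := Module.finite_of_finite k
  have hfin : Finite (ad0 ρbar) := (inferInstance : Finite ↥(ad0Sub ρbar))
  let x : ↥(H0arch (ad0 ρbar)) := ⟨archElt p ρbar hdet, archElt_mem p ρbar hdet⟩
  have hx : x ≠ 0 := fun h0 => archElt_ne_zero p ρbar hdet (congrArg Subtype.val h0)
  exact Nat.card_le_card_of_injective (fun t : k => t • x) (smul_left_injective k hx)

/-- `H⁰(G_ℚ, ad⁰ρbar) = 0` (`ρbar` absolutely irreducible, `p` odd). -/
theorem H0glob_ad0 {k : Type} [Field k] (p : ℕ) [Fact p.Prime] (hp2 : p ≠ 2)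
    (hpk : (p : k) = 0) (ρbar : ResidualGaloisRep k) (habs : ρbar.IsAbsolutelyIrreducible) :
    H0glob (ad0 ρbar) = ⊥ := by
  rw [Submodule.eq_bot_iff]
  intro x hx
  have hx' : ∀ g : GQ, (ad0 ρbar).ρ g x = x := hx
  set f : Module.End k ρbar.V := (x : ↥(ad0Sub ρbar)).1 with hf
  have htr : LinearMap.trace k ρbar.V f = 0 := LinearMap.mem_ker.mp (x : ↥(ad0Sub ρbar)).2
  have hcomm : ∀ g, f * ρbar.ρ g = ρbar.ρ g * f := by
    intro g
    have h1 : ρbar.ρ g * (f * ρbar.ρ g⁻¹) = f := by
      rw [hf, ← arch_ad0_ρ_val, hx' g]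
    have h2 : ρbar.ρ g⁻¹ * ρbar.ρ g = 1 := by rw [← map_mul, inv_mul_cancel, map_one]
    calc f * ρbar.ρ g = ρbar.ρ g * (f * ρbar.ρ g⁻¹) * ρbar.ρ g := by rw [h1]
      _ = ρbar.ρ g * f := by rw [mul_assoc, mul_assoc, h2, mul_one]
  have hf0 : f = 0 := arch_commute_eq_zero p hp2 hpk ρbar habs f htr hcomm
  have : (x : ↥(ad0Sub ρbar)) = 0 := Subtype.ext hf0
  exact this

end Fermat.Agent.S56
end MergeWrap_S56_W3_Arch
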