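import Fermat.Agent.MU.S56.W3.SO.Tangent.Red
import Fermat.Agent.MU.S56.W3.SO.Defs
import Fermat.Agent.Lib.MultRed.InertiaCyclo
import Fermat.Agent.MU.S56.W3.SO.Tangent.T1
import Fermat.Agent.MU.S56.W3.SO.Count
import Fermat.Agent.S56.W3.SO.Place

section MergeWrap_S56_W3_SO_TangentRes -- from S56/W3/SO/TangentRes.lean

set_option autoImplicit false

namespace Fermat.Agent.S56.SO

open Fermat.Agent.F4 ExtCitation
open scoped TensorProduct

section T0

variable {k : Type} [Field k] {ρbar : ResidualGaloisRep k} {ρ : GaloisRepAdic (DualNumber k)}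

/-- The constant part of an element of `ρ.V`, with respect to the isomorphism `e`. -/
noncomputable def resP0 (e : (DualNumber k ⊗[k] ρbar.V) ≃ₗ[DualNumber k] ρ.V) (y : ρ.V) :
    ρbar.V :=
  redFst (e.symm y)

variable (e : (DualNumber k ⊗[k] ρbar.V) ≃ₗ[DualNumber k] ρ.V)

theorem resP0_add (y y' : ρ.V) : resP0 e (y + y') = resP0 e y + resP0 e y' := by
  unfold resP0
  rw [map_add, map_add]

theorem resP0_smul (a : DualNumber k) (y : ρ.V) :
    resP0 e (a • y) = TrivSqZeroExt.fst a • resP0 e y := by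
  unfold resP0
  rw [map_smul, redFst_smul]

theorem resP0_sum (a : Fin 2 → DualNumber k) (y : Fin 2 → ρ.V) :
    resP0 e (∑ i, a i • y i) = ∑ i, TrivSqZeroExt.fst (a i) • resP0 e (y i) := by
  rw [Fin.sum_univ_two, Fin.sum_univ_two, resP0_add, resP0_smul, resP0_smul]

theorem resP0_apply_one_tmul (v : ρbar.V) : resP0 e (e ((1 : DualNumber k) ⊗ₜ[k] v)) = v := by
  unfold resP0
  rw [LinearEquiv.symm_apply_apply, redFst_one_tmul]

/-- `P0` intertwines `ρ` and `ρbar`. -/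
theorem resP0_ρ {c : GQ → ad0 ρbar}
    (he : ∀ (σ : GQ) (x : DualNumber k ⊗[k] ρbar.V),
      ρ.ρ σ (e x) = e (defEnd ρbar (c σ : ↥(ad0Sub ρbar)).1 σ x)) (σ : GQ) (y : ρ.V) :
    resP0 e (ρ.ρ σ y) = ρbar.ρ σ (resP0 e y) := by
  unfold resP0
  have h := he σ (e.symm y)
  rw [LinearEquiv.apply_symm_apply] at h
  rw [h, LinearEquiv.symm_apply_apply, redFst_defEnd]

/-- The constant parts of a basis of `ρ.V` span `V`. -/
theorem resP0_span (b : Module.Basis (Fin 2) (DualNumber k) ρ.V) :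
    ⊤ ≤ Submodule.span k (Set.range fun i => resP0 e (b i)) := by
  intro v _
  have h1 : v = resP0 e (∑ i, b.repr (e ((1 : DualNumber k) ⊗ₜ[k] v)) i • b i) := by
    rw [b.sum_repr, resP0_apply_one_tmul]
  rw [h1, resP0_sum]
  refine Submodule.sum_mem _ fun i _ => Submodule.smul_mem _ _ ?_
  exact Submodule.subset_span ⟨i, rfl⟩

/-- The basis of `V` of the constant parts of a basis of `ρ.V`. -/
noncomputable def resBasis (b : Module.Basis (Fin 2) (DualNumber k) ρ.V) :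
    Module.Basis (Fin 2) k ρbar.V :=
  basisOfTopLeSpanOfCardEqFinrank (fun i => resP0 e (b i)) (resP0_span e b)
    (by rw [ρbar.finrank_eq, Fintype.card_fin])

theorem resBasis_apply (b : Module.Basis (Fin 2) (DualNumber k) ρ.V) (i : Fin 2) :
    resBasis e b i = resP0 e (b i) := by
  unfold resBasis
  rw [coe_basisOfTopLeSpanOfCardEqFinrank]

/-- The coordinates of the constant part are the constant parts of the coordinates. -/
theorem resBasis_repr (b : Module.Basis (Fin 2) (DualNumber k) ρ.V) (y : ρ.V) (i : Fin 2) :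
    (resBasis e b).repr (resP0 e y) i = TrivSqZeroExt.fst (b.repr y i) := by
  have h1 : resP0 e y = ∑ j, TrivSqZeroExt.fst (b.repr y j) • resBasis e b j := by
    conv_lhs => rw [← b.sum_repr y]
    rw [resP0_sum]
    exact Finset.sum_congr rfl fun j _ => by rw [resBasis_apply]
  rw [h1, Module.Basis.repr_sum_self]

end T0

/-- **(T0)** if `ρbar` has a strict-ordinary deformation to `k[ε]`, it is triangular at `P`. -/
theorem so_exists_soTri_res {k : Type} [Field k] (p : ℕ) [Fact p.Prime]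
    (ρbar : ResidualGaloisRep k)
    (P : ValuationSubring (AlgebraicClosure ℚ)) (hP : P.LiesOverPrime p)
    (c : GQ → ad0 ρbar) (ρ : GaloisRepAdic (DualNumber k)) (hdef : IsDefOf ρbar c ρ)
    (hso : ρ.IsStrictOrdinaryAt p) :
    ∃ w : Module.Basis (Fin 2) k ρbar.V, Fermat.Agent.S59.SO.SOTri ρbar.ρ p P w := by
  obtain ⟨e, he⟩ := hdef
  have hAt : Fermat.Agent.S59.SO.SOAt ρ.ρ p P := hso.2 P hP
  obtain ⟨b, hb⟩ := hAt.exists_soTri
  have key : ∀ (σ : GQ) (i j : Fin 2),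
      (resBasis e b).repr (ρbar.ρ σ (resBasis e b i)) j =
        TrivSqZeroExt.fst (b.repr (ρ.ρ σ (b i)) j) := by
    intro σ i j
    rw [resBasis_apply, ← resP0_ρ e he, resBasis_repr]
  refine ⟨resBasis e b, ⟨fun σ hσ => ?_, fun σ hσ => ?_, fun σ hσ => ?_⟩⟩
  · rw [key, hb.dec σ hσ, TrivSqZeroExt.fst_zero]
  · rw [key, hb.inert σ hσ, TrivSqZeroExt.fst_one]
  · rw [key, key]
    exact (hb.cyc σ hσ).map (TrivSqZeroExt.fstHom k k k).toRingHom

end Fermat.Agent.S56.SO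
end MergeWrap_S56_W3_SO_TangentRes

section MergeWrap_S56_W3_SO_Tangent -- from S56/W3/SO/Tangent.lean

set_option autoImplicit false

namespace Fermat.Agent.S56.SO

open Fermat.Agent.F4 ExtCitation

/-- **(T0)** if `ρbar` has a strict-ordinary deformation to `k[ε]`, it is triangular at `P`. -/
theorem so_exists_soTri {k : Type} [Field k] (p : ℕ) [Fact p.Prime] (ρbar : ResidualGaloisRep k)
    (P : ValuationSubring (AlgebraicClosure ℚ)) (hP : P.LiesOverPrime p)
    (c : GQ → ad0 ρbar) (ρ : GaloisRepAdic (DualNumber k)) (hdef : IsDefOf ρbar c ρ)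
    (hso : ρ.IsStrictOrdinaryAt p) :
    ∃ w : Module.Basis (Fin 2) k ρbar.V, Fermat.Agent.S59.SO.SOTri ρbar.ρ p P w :=
  so_exists_soTri_res p ρbar P hP c ρ hdef hso

/-- **(T1)** a strict-ordinary tangent cocycle is, up to the coboundary of some `m ∈ ad⁰`,
`W0 w`-valued on the decomposition group of `P`. -/
theorem so_tangent_normal_form {k : Type} [Field k] (p : ℕ) [Fact p.Prime] (hp2 : p ≠ 2)
    (hpk : (p : k) = 0) (ρbar : ResidualGaloisRep k)
    (P : ValuationSubring (AlgebraicClosure ℚ)) (hP : P.LiesOverPrime p)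
    (w : Module.Basis (Fin 2) k ρbar.V) (hw : Fermat.Agent.S59.SO.SOTri ρbar.ρ p P w)
    (c : GQ → ad0 ρbar) (ρ : GaloisRepAdic (DualNumber k)) (hdef : IsDefOf ρbar c ρ)
    (hso : ρ.IsStrictOrdinaryAt p) :
    ∃ m : ad0 ρbar, ∀ σ ∈ P.decompositionSubgroup ℚ,
      ((c σ + ((ad0 ρbar).ρ σ m - m) : ad0 ρbar) : ↥(ad0Sub ρbar)).1 ∈ W0 w :=
  so_tangent_normal_form_pf p hp2 hpk ρbar P hP w hw c ρ hdef hso

end Fermat.Agent.S56.SO
end MergeWrap_S56_W3_SO_Tangent

section MergeWrap_S56_W3_SO -- from S56/W3/SO.lean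

set_option autoImplicit false

namespace Fermat.Agent.S56

open Fermat.Agent.F4 ExtCitation IsLocalRing

/-- **W3-SO**: the strict-ordinary tangent classes at `p` lie in a subgroup with at most
`|k| · #H⁰(D_p, ad⁰ρbar)` elements. -/
theorem localWall_SO {𝒪 : Type} [CommRing 𝒪] [IsLocalRing 𝒪] [Finite (ResidueField 𝒪)]
    (p : ℕ) [Fact p.Prime] (hp2 : p ≠ 2) (ρbar : ResidualGaloisRep (ResidueField 𝒪))
    (hdet : (GaloisRepAdic.ofResidualGaloisRep ρbar).DetIsCyclotomic p)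
    (𝒟 : ∀ ⦃A : Type⦄ [CommRing A] [IsLocalRing A] [Algebra 𝒪 A], GaloisRepAdic A → Prop)
    (h𝒟 : ∀ ⦃A : Type⦄ [CommRing A] [IsLocalRing A] [Algebra 𝒪 A] (ρ : GaloisRepAdic A),
      𝒟 ρ → ρ.DetIsCyclotomic p ∧ ρ.IsStrictOrdinaryAt p) :
    LocalWall (ad0 ρbar) (TangentClasses 𝒪 ρbar 𝒟) (pPrime p)
      (Nat.card (ResidueField 𝒪)) := by
  classical
  have hpk : (p : ResidueField 𝒪) = 0 := by
    have h1 := hdet.1
    rw [IsLocalRing.mem_maximalIdeal, mem_nonunits_iff, isUnit_iff_ne_zero, not_not] at h1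
    exact h1
  have hfinM : Finite (ad0 ρbar) :=
    Module.finite_of_finite (ResidueField 𝒪) (M := ↥(ad0Sub ρbar))
  by_cases hT : (TangentClasses 𝒪 ρbar 𝒟).Nonempty
  · obtain ⟨x₀, c₀, -, ρ₀, hρ₀, hdef₀⟩ := hT
    have hP := SO.so_liesOver p
    obtain ⟨w, hw⟩ := SO.so_exists_soTri p ρbar (primeLocalPlace (pPrime p)) hP c₀.1 ρ₀ hdef₀
      (@h𝒟 _ _ _ (Fermat.Agent.S53.dualNumberAlgebra 𝒪) ρ₀ hρ₀.1).2
    obtain ⟨hfin, hcard⟩ := SO.card_Lw_le hp2 hpk hw
    refine ⟨SO.Lw p ρbar w, ?_, hfin, hcard⟩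
    rintro x ⟨c, rfl, ρ, hρ, hdef⟩
    obtain ⟨m, hm⟩ := SO.so_tangent_normal_form p hp2 hpk ρbar (primeLocalPlace (pPrime p)) hP w hw
      c.1 ρ hdef (@h𝒟 _ _ _ (Fermat.Agent.S53.dualNumberAlgebra 𝒪) ρ hρ.1).2
    -- the restricted cocycle and its modification by the coboundary of `m`
    let cl : ↥(Z1 (locLevelsAll (pPrime p)) (SO.Mloc p ρbar)) :=
      Z1res levelsAll (ad0 ρbar) (primeLocalToGlobal (pPrime p)) c
    let dm : ↥(Z1 (locLevelsAll (pPrime p)) (SO.Mloc p ρbar)) :=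
      ⟨δ0 (SO.Mloc p ρbar) m, groupCohomology.d₀₁_apply_mem_cocycles₁ _,
        isLC₁_δ0 (SO.isSmooth_Mloc p ρbar) _⟩
    have hmem : cl + dm ∈ SO.Zw p ρbar w := fun γ =>
      hm _ (SO.locp_mem_decomposition p γ)
    have hdm : H1smπ (locLevelsAll (pPrime p)) (SO.Mloc p ρbar) dm = 0 := by
      rw [H1smπ, Submodule.mkQ_apply, Submodule.Quotient.mk_eq_zero, Submodule.mem_comap]
      exact ⟨m, rfl⟩
    have hres : resLoc (ad0 ρbar) (pPrime p) (H1smπ levelsAll (ad0 ρbar) c) =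
        H1smπ (locLevelsAll (pPrime p)) (SO.Mloc p ρbar) cl := rfl
    refine ⟨⟨cl + dm, hmem⟩, ?_⟩
    show H1smπ (locLevelsAll (pPrime p)) (SO.Mloc p ρbar) (cl + dm) = _
    rw [map_add, hdm, add_zero, hres]
  · refine ⟨⊥, fun x hx => (hT ⟨x, hx⟩).elim, inferInstance, ?_⟩
    rw [AddSubgroup.card_bot]
    exact Nat.one_le_iff_ne_zero.mpr (Nat.mul_ne_zero Nat.card_pos.ne' Nat.card_pos.ne')

end Fermat.Agent.S56
end MergeWrap_S56_W3_SO
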